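import Mathlib
import Fermat.Agent.Lib.Cheb.Spec

/-!
# CHEB piece A (helper884): basic facts on primes of a Galois number field

* `exists_bad_nat`, `badSet`: a finite set of rational primes outside of which all inertia groups
  of `Gal(L/ℚ)` are trivial (elementary, via a product of differences).
* `liesOver_span`: a prime containing the rational prime `p` lies over `(p)`.
* `isGaloisGroup_sub`: `H ≤ Gal(L/ℚ)` is a Galois group for `𝓞 L / 𝓞 (L^H)`.
-/

set_option autoImplicit false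

open NumberField Ideal
open scoped Pointwise

namespace Fermat.Agent.Lib.Cheb.H884

section General

variable (K : Type) [Field K] [NumberField K]

theorem liesOver_span {p : ℕ} (hp : p.Prime) (P : Ideal (𝓞 K)) [hP : P.IsPrime]
    (hpP : (p : 𝓞 K) ∈ P) : P.LiesOver (span {(p : ℤ)}) := by
  haveI : Fact p.Prime := ⟨hp⟩
  have hmax : (span {(p : ℤ)}).IsMaximal := Int.ideal_span_isMaximal_of_prime p
  refine ⟨hmax.eq_of_le ?_ ?_⟩
  · have : (P.under ℤ).IsPrime := inferInstance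
    exact this.ne_top
  · rw [span_singleton_le_iff_mem, mem_under]
    simpa using hpP

theorem natCast_mem_of_absNorm_eq {p : ℕ} (Q : Ideal (𝓞 K)) (h : absNorm Q = p) :
    (p : 𝓞 K) ∈ Q := by
  rw [← h]; exact absNorm_mem Q

theorem pow_inertiaDeg_eq {p : ℕ} (hp : p.Prime) (P : Ideal (𝓞 K)) [hP : P.IsPrime]
    (hpP : (p : 𝓞 K) ∈ P) : p ^ P.inertiaDeg ℤ = absNorm P := by
  haveI := liesOver_span K hp P hpP
  exact Ideal.pow_inertiaDeg p P

theorem inertiaDeg_int_pos (P : Ideal (𝓞 K)) [hP : P.IsPrime] : 0 < P.inertiaDeg ℤ :=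
  inertiaDeg_pos P ℤ

theorem absNorm_eq_iff_inertiaDeg_eq_one {p : ℕ} (hp : p.Prime) (P : Ideal (𝓞 K)) [hP : P.IsPrime]
    (hpP : (p : 𝓞 K) ∈ P) : absNorm P = p ↔ P.inertiaDeg ℤ = 1 := by
  rw [← pow_inertiaDeg_eq K hp P hpP]
  constructor
  · intro h
    exact Nat.pow_right_injective hp.two_le (by simpa using h)
  · intro h
    rw [h, pow_one]

theorem dvd_absNorm {p : ℕ} (hp : p.Prime) (P : Ideal (𝓞 K)) [hP : P.IsPrime]
    (hpP : (p : 𝓞 K) ∈ P) : p ∣ absNorm P := by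
  rw [← pow_inertiaDeg_eq K hp P hpP]
  exact dvd_pow_self p (inertiaDeg_int_pos K P).ne'

end General

section Galois

variable (L : Type) [Field L] [NumberField L] [IsGalois ℚ L]

theorem exists_bad_nat : ∃ N : ℕ, N ≠ 0 ∧ ∀ (P : Ideal (𝓞 L)) (ι : L ≃ₐ[ℚ] L), ι ≠ 1 →
    (∀ x : 𝓞 L, ι • x - x ∈ P) → absNorm P ∣ N := by
  classical
  have hfaith : FaithfulSMul (L ≃ₐ[ℚ] L) (𝓞 L) :=
    (inferInstance : IsGaloisGroup (L ≃ₐ[ℚ] L) ℤ (𝓞 L)).faithful
  have hex : ∀ ι : L ≃ₐ[ℚ] L, ∃ x : 𝓞 L, ι ≠ 1 → ι • x ≠ x := by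
    intro ι
    by_cases h : ι = 1
    · exact ⟨0, fun h' => (h' h).elim⟩
    · by_contra hcon
      push_neg at hcon
      apply h
      apply hfaith.eq_of_smul_eq_smul
      intro x
      rw [one_smul]
      exact (hcon x).2
  choose x hx using hex
  haveI : Fintype (L ≃ₐ[ℚ] L) := Fintype.ofFinite _
  set D : 𝓞 L := ∏ ι ∈ Finset.univ.filter (fun ι : L ≃ₐ[ℚ] L => ι ≠ 1), (ι • x ι - x ι) with hD
  have hD0 : D ≠ 0 := by
    rw [hD, Finset.prod_ne_zero_iff]
    intro ι hι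
    exact sub_ne_zero.mpr (hx ι (Finset.mem_filter.mp hι).2)
  refine ⟨absNorm (span {D}), ?_, ?_⟩
  · rw [Ne, absNorm_eq_zero_iff, span_singleton_eq_bot]; exact hD0
  · intro P ι hι hin
    apply absNorm_dvd_absNorm_of_le
    rw [span_singleton_le_iff_mem]
    exact P.mem_of_dvd
      (Finset.dvd_prod_of_mem _ (Finset.mem_filter.mpr ⟨Finset.mem_univ _, hι⟩)) (hin (x ι))

/-- The exceptional set of rational primes. -/
noncomputable def badSet : Finset ℕ := (Classical.choose (exists_bad_nat L)).primeFactors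

theorem inertia_eq_bot {p : ℕ} (hp : p.Prime) (hpB : p ∉ badSet L) (P : Ideal (𝓞 L))
    [hP : P.IsPrime] (hpP : (p : 𝓞 L) ∈ P) : Ideal.inertia (L ≃ₐ[ℚ] L) P = ⊥ := by
  rw [eq_bot_iff]
  intro ι hι
  rw [Subgroup.mem_bot]
  by_contra hne
  obtain ⟨hN0, hN⟩ := Classical.choose_spec (exists_bad_nat L)
  have h1 : absNorm P ∣ Classical.choose (exists_bad_nat L) := hN P ι hne hι
  have h2 : p ∣ Classical.choose (exists_bad_nat L) := (dvd_absNorm L hp P hpP).trans h1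
  exact hpB (Nat.mem_primeFactors.mpr ⟨hp, h2, hN0⟩)

variable (H : Subgroup (L ≃ₐ[ℚ] L))

theorem isGaloisGroup_sub : IsGaloisGroup H (𝓞 (IntermediateField.fixedField H)) (𝓞 L) := by
  have h1 : IsGaloisGroup H (IntermediateField.fixedField H) L :=
    IsGaloisGroup.subgroup (L ≃ₐ[ℚ] L) ℚ L H
  have h2 : SMulDistribClass H (𝓞 L) L :=
    ⟨fun h b l => smul_distrib_smul (h : L ≃ₐ[ℚ] L) b l⟩
  exact IsGaloisGroup.of_isFractionRing H (𝓞 (IntermediateField.fixedField H)) (𝓞 L)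
    (IntermediateField.fixedField H) L

theorem inertia_sub_eq_bot {p : ℕ} (hp : p.Prime) (hpB : p ∉ badSet L) (P : Ideal (𝓞 L))
    [hP : P.IsPrime] (hpP : (p : 𝓞 L) ∈ P) : Ideal.inertia H P = ⊥ := by
  rw [eq_bot_iff]
  intro h hh
  rw [Subgroup.mem_bot]
  have h1 : (h : L ≃ₐ[ℚ] L) ∈ Ideal.inertia (L ≃ₐ[ℚ] L) P := fun x => hh x
  rw [inertia_eq_bot L hp hpB P hpP, Subgroup.mem_bot] at h1
  exact Subtype.ext h1

theorem stabilizer_sub_eq (P : Ideal (𝓞 L)) :
    MulAction.stabilizer H P = (MulAction.stabilizer (L ≃ₐ[ℚ] L) P).subgroupOf H := by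
  ext h
  rw [MulAction.mem_stabilizer_iff, Subgroup.mem_subgroupOf, MulAction.mem_stabilizer_iff]
  rfl

end Galois

end Fermat.Agent.Lib.Cheb.H884
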