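import Mathlib
import Fermat.Agent.Lib.Cheb.Spec
import Fermat.Agent.Lib.Cheb.H884.Basic

/-!
# CHEB piece A (helper884): `Spec.CountStatement`

For a Galois number field `L/ℚ`, a subgroup `H ≤ Gal(L/ℚ)` with fixed field `F = L^H` and a
rational prime `p` outside a finite set:
`#{𝔮 ⊂ 𝓞 F prime, N𝔮 = p} * |H| = ∑_{P ∣ p, D_P ≤ H} |D_P|`.
-/

set_option autoImplicit false
set_option linter.unusedSectionVars false
set_option linter.style.haveILetI false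

open NumberField Ideal
open scoped Pointwise

namespace Fermat.Agent.Lib.Cheb.H884

variable (L : Type) [Field L] [NumberField L] [IsGalois ℚ L] (H : Subgroup (L ≃ₐ[ℚ] L))

local notation "F" => IntermediateField.fixedField H

theorem card_decomp_eq {p : ℕ} (hp : p.Prime) (hpB : p ∉ badSet L) (P : Ideal (𝓞 L))
    [hP : P.IsPrime] (hpP : (p : 𝓞 L) ∈ P) :
    Nat.card (MulAction.stabilizer (L ≃ₐ[ℚ] L) P) = P.inertiaDeg ℤ := by
  have h := Ideal.card_stabilizer_eq_card_inertia_mul_finrank (G := L ≃ₐ[ℚ] L) (P.under ℤ) P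
  rw [inertia_eq_bot L hp hpB P hpP] at h
  simpa using h

theorem card_stab_sub_eq {p : ℕ} (hp : p.Prime) (hpB : p ∉ badSet L) (P : Ideal (𝓞 L))
    [hP : P.IsPrime] (hpP : (p : 𝓞 L) ∈ P) :
    Nat.card (MulAction.stabilizer H P) = P.inertiaDeg (𝓞 F) := by
  haveI := isGaloisGroup_sub L H
  have h := Ideal.card_stabilizer_eq_card_inertia_mul_finrank (G := H) (P.under (𝓞 F)) P
  rw [inertia_sub_eq_bot L H hp hpB P hpP] at h
  simp only [Subgroup.card_bot, one_mul] at h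
  exact Eq.trans rfl h

theorem inertiaDeg_tower' (P : Ideal (𝓞 L)) :
    P.inertiaDeg ℤ = (P.under (𝓞 F)).inertiaDeg ℤ * P.inertiaDeg (𝓞 F) :=
  Ideal.inertiaDeg_tower (R := ℤ) (P.under (𝓞 F)) P

theorem natCast_mem_under {p : ℕ} (P : Ideal (𝓞 L)) (hpP : (p : 𝓞 L) ∈ P) :
    (p : 𝓞 F) ∈ P.under (𝓞 F) := by
  rw [mem_under]
  simpa using hpP

theorem decomp_le_iff {p : ℕ} (hp : p.Prime) (hpB : p ∉ badSet L) (P : Ideal (𝓞 L))
    [hP : P.IsPrime] (hpP : (p : 𝓞 L) ∈ P) :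
    MulAction.stabilizer (L ≃ₐ[ℚ] L) P ≤ H ↔ absNorm (P.under (𝓞 F)) = p := by
  have hq : (P.under (𝓞 F)).IsPrime := inferInstance
  have hpq : (p : 𝓞 F) ∈ P.under (𝓞 F) := natCast_mem_under L H P hpP
  rw [absNorm_eq_iff_inertiaDeg_eq_one F hp (P.under (𝓞 F)) hpq]
  have h1 := card_decomp_eq L hp hpB P hpP
  have h2 := card_stab_sub_eq L H hp hpB P hpP
  have h3 := inertiaDeg_tower' L H P
  have hpos : 0 < P.inertiaDeg (𝓞 F) := inertiaDeg_pos P (𝓞 F)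
  rw [stabilizer_sub_eq] at h2
  constructor
  · intro hle
    have h4 : Nat.card ((MulAction.stabilizer (L ≃ₐ[ℚ] L) P).subgroupOf H) =
        Nat.card (MulAction.stabilizer (L ≃ₐ[ℚ] L) P) :=
      Nat.card_congr (Subgroup.subgroupOfEquivOfLe hle).toEquiv
    rw [h2, h1, h3] at h4
    have : (P.under (𝓞 F)).inertiaDeg ℤ * P.inertiaDeg (𝓞 F) = 1 * P.inertiaDeg (𝓞 F) := by
      rw [one_mul]; exact h4.symm
    exact Nat.eq_of_mul_eq_mul_right hpos this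
  · intro h1'
    rw [h1', one_mul] at h3
    have h5 : Nat.card ((MulAction.stabilizer (L ≃ₐ[ℚ] L) P ⊓ H : Subgroup (L ≃ₐ[ℚ] L))) =
        Nat.card (MulAction.stabilizer (L ≃ₐ[ℚ] L) P) := by
      rw [h1, h3, ← h2, ← Subgroup.inf_subgroupOf_right]
      exact (Nat.card_congr (Subgroup.subgroupOfEquivOfLe inf_le_right).toEquiv).symm
    have h6 : MulAction.stabilizer (L ≃ₐ[ℚ] L) P ⊓ H = MulAction.stabilizer (L ≃ₐ[ℚ] L) P :=
      Subgroup.eq_of_le_of_card_ge inf_le_left h5.ge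
    rw [← h6]
    exact inf_le_right

theorem natCast_mem_of_liesOver {p : ℕ} (𝔮 : Ideal (𝓞 F)) (hN : absNorm 𝔮 = p)
    (P : Ideal (𝓞 L)) [hPq : P.LiesOver 𝔮] : (p : 𝓞 L) ∈ P := by
  have h1 : (p : 𝓞 F) ∈ 𝔮 := natCast_mem_of_absNorm_eq F 𝔮 hN
  rw [hPq.over, mem_under] at h1
  simpa using h1

theorem isMaximal_of_absNorm_eq {p : ℕ} (hp : p.Prime) (𝔮 : Ideal (𝓞 F))
    [h𝔮 : 𝔮.IsPrime] (hN : absNorm 𝔮 = p) : 𝔮.IsMaximal := by
  refine Ideal.IsPrime.isMaximal h𝔮 ?_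
  intro h
  rw [h, absNorm_bot] at hN
  exact hp.ne_zero hN.symm

theorem finite_primesOver' {p : ℕ} (hp : p.Prime) (𝔮 : Ideal (𝓞 F))
    [h𝔮 : 𝔮.IsPrime] (hN : absNorm 𝔮 = p) : (primesOver 𝔮 (𝓞 L)).Finite := by
  haveI := isMaximal_of_absNorm_eq L H hp 𝔮 hN
  exact IsDedekindDomain.primesOver_finite 𝔮 (𝓞 L)

theorem sum_fiber {p : ℕ} (hp : p.Prime) (hpB : p ∉ badSet L) (𝔮 : Ideal (𝓞 F))
    [h𝔮 : 𝔮.IsPrime] (hN : absNorm 𝔮 = p) :
    ∑ P ∈ (finite_primesOver' L H hp 𝔮 hN).toFinset,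
      Nat.card (MulAction.stabilizer (L ≃ₐ[ℚ] L) P) = Nat.card H := by
  haveI := isGaloisGroup_sub L H
  haveI := isMaximal_of_absNorm_eq L H hp 𝔮 hN
  have hne : (primesOver 𝔮 (𝓞 L)).Nonempty := by
    have := IsDedekindDomain.primesOver_ncard_ne_zero 𝔮 (𝓞 L)
    exact Set.nonempty_of_ncard_ne_zero this
  obtain ⟨P₀, hP₀⟩ := hne
  haveI : P₀.IsPrime := hP₀.1
  haveI : P₀.LiesOver 𝔮 := hP₀.2
  have hp0 : (p : 𝓞 L) ∈ P₀ := natCast_mem_of_liesOver L H 𝔮 hN P₀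
  have hq1 : 𝔮.inertiaDeg ℤ = 1 :=
    (absNorm_eq_iff_inertiaDeg_eq_one F hp 𝔮 (natCast_mem_of_absNorm_eq F 𝔮 hN)).mp hN
  have hterm : ∀ P ∈ (finite_primesOver' L H hp 𝔮 hN).toFinset,
      Nat.card (MulAction.stabilizer (L ≃ₐ[ℚ] L) P) = P₀.inertiaDeg (𝓞 F) := by
    intro P hP
    rw [Set.Finite.mem_toFinset] at hP
    haveI : P.IsPrime := hP.1
    haveI : P.LiesOver 𝔮 := hP.2
    have hpP : (p : 𝓞 L) ∈ P := natCast_mem_of_liesOver L H 𝔮 hN P
    rw [card_decomp_eq L hp hpB P hpP, inertiaDeg_tower' L H P,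
      ← (inferInstance : P.LiesOver 𝔮).over, hq1, one_mul]
    exact Ideal.inertiaDeg_eq_of_isGaloisGroup 𝔮 P P₀ H
  rw [Finset.sum_congr rfl hterm, Finset.sum_const, smul_eq_mul,
    ← Set.ncard_eq_toFinset_card (primesOver 𝔮 (𝓞 L))]
  have h := Ideal.ncard_primesOver_mul_card_inertia_mul_finrank (G := H) 𝔮 P₀
  rw [inertia_sub_eq_bot L H hp hpB P₀ hp0] at h
  simpa using h

theorem finite_primesLe {p : ℕ} (hp : p.Prime) : (Spec.primesLe L H p).Finite := by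
  haveI : Fact p.Prime := ⟨hp⟩
  haveI hmax : (span {(p : ℤ)}).IsMaximal := Int.ideal_span_isMaximal_of_prime p
  refine (IsDedekindDomain.primesOver_finite (span {(p : ℤ)}) (𝓞 L)).subset ?_
  rintro P ⟨hP, hpP, -⟩
  exact ⟨hP, liesOver_span L hp P hpP⟩

theorem finite_primeSet (p : ℕ) : {𝔮 : Ideal (𝓞 F) | 𝔮.IsPrime ∧ absNorm 𝔮 = p}.Finite :=
  (Ideal.finite_setOfPred_absNorm_eq p).subset fun _ h => h.2

/-- **Piece A**: `Spec.CountStatement`. -/
theorem count : Spec.CountStatement := by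
  classical
  intro L _ _ _ H
  refine ⟨badSet L, fun p hp hpB => ?_⟩
  have hX := finite_primesLe L H hp
  have hY := finite_primeSet L H p
  have e1 : Spec.primeCount (IntermediateField.fixedField H) p = hY.toFinset.card := by
    unfold Spec.primeCount
    rw [← Set.ncard_eq_toFinset_card _ hY]
    exact Nat.card_coe_set_eq _
  have e2 : Spec.decompWeight L H p =
      ∑ P ∈ hX.toFinset, Nat.card (MulAction.stabilizer (L ≃ₐ[ℚ] L) P) := by
    unfold Spec.decompWeight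
    rw [finsum_set_coe_eq_finsum_mem (f := fun P => Nat.card (Spec.decomp L P)),
      finsum_mem_eq_finite_toFinset_sum _ hX]
  rw [e1, e2]
  have hmaps : ∀ P ∈ hX.toFinset, P.under (𝓞 (IntermediateField.fixedField H)) ∈ hY.toFinset := by
    intro P hP
    rw [Set.Finite.mem_toFinset] at hP ⊢
    obtain ⟨hPp, hpP, hle⟩ := hP
    haveI := hPp
    exact ⟨inferInstance, (decomp_le_iff L H hp hpB P hpP).mp hle⟩
  rw [← Finset.sum_fiberwise_of_maps_to hmaps]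
  have hinner : ∀ 𝔮 ∈ hY.toFinset,
      ∑ P ∈ hX.toFinset with P.under (𝓞 (IntermediateField.fixedField H)) = 𝔮,
        Nat.card (MulAction.stabilizer (L ≃ₐ[ℚ] L) P) = Nat.card H := by
    intro 𝔮 h𝔮
    rw [Set.Finite.mem_toFinset] at h𝔮
    obtain ⟨hqp, hN⟩ := h𝔮
    haveI := hqp
    rw [← sum_fiber L H hp hpB 𝔮 hN]
    refine Finset.sum_congr ?_ fun _ _ => rfl
    ext P
    rw [Finset.mem_filter, Set.Finite.mem_toFinset, Set.Finite.mem_toFinset]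
    constructor
    · rintro ⟨⟨hPp, -, -⟩, hu⟩
      exact ⟨hPp, ⟨hu.symm⟩⟩
    · rintro ⟨hPp, hPq⟩
      haveI := hPp
      haveI := hPq
      have hpP : (p : 𝓞 L) ∈ P := natCast_mem_of_liesOver L H 𝔮 hN P
      have hu : P.under (𝓞 (IntermediateField.fixedField H)) = 𝔮 := hPq.over.symm
      refine ⟨⟨hPp, hpP, ?_⟩, hu⟩
      exact (decomp_le_iff L H hp hpB P hpP).mpr (by rw [hu]; exact hN)
  rw [Finset.sum_congr rfl hinner, Finset.sum_const, smul_eq_mul]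

end Fermat.Agent.Lib.Cheb.H884
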